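import Mathlib.Data.ZMod.Basic
import Mathlib.RingTheory.Coprime.Basic
import Mathlib.RingTheory.Coprime.Lemmas
import Mathlib.Tactic.Ring
import Mathlib.Tactic.Linarith
import Mathlib.Tactic.LinearCombination
import Mathlib.Algebra.Ring.Parity
import Mathlib.Algebra.Ring.Int.Parity

set_option autoImplicit false

/-!
# Local obstructions used in the 2-descent on `y² = z (z+1) (z-80)`
-/

namespace Fermat.Agent.S51.KL

/-- `-1` is not a square mod 3. -/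
theorem three_dvd_of_sq_add_sq {a b : ℤ} (h : (3 : ℤ) ∣ a ^ 2 + b ^ 2) : (3 : ℤ) ∣ a ∧ (3 : ℤ) ∣ b := by
  have h3 : ((a ^ 2 + b ^ 2 : ℤ) : ZMod 3) = 0 := (ZMod.intCast_zmod_eq_zero_iff_dvd _ 3).mpr h
  push_cast at h3
  have key : ∀ x y : ZMod 3, x ^ 2 + y ^ 2 = 0 → x = 0 ∧ y = 0 := by decide
  obtain ⟨ha, hb⟩ := key _ _ h3
  exact ⟨(ZMod.intCast_zmod_eq_zero_iff_dvd a 3).mp ha, (ZMod.intCast_zmod_eq_zero_iff_dvd b 3).mp hb⟩

/-- `3` is not a square mod 5. -/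
theorem five_dvd_of_three_mul_sq {a b : ℤ} (h : (5 : ℤ) ∣ 3 * a ^ 2 - b ^ 2) :
    (5 : ℤ) ∣ a ∧ (5 : ℤ) ∣ b := by
  have h5 : ((3 * a ^ 2 - b ^ 2 : ℤ) : ZMod 5) = 0 := (ZMod.intCast_zmod_eq_zero_iff_dvd _ 5).mpr h
  push_cast at h5
  have key : ∀ x y : ZMod 5, 3 * x ^ 2 - y ^ 2 = 0 → x = 0 ∧ y = 0 := by decide
  obtain ⟨ha, hb⟩ := key _ _ h5
  exact ⟨(ZMod.intCast_zmod_eq_zero_iff_dvd a 5).mp ha, (ZMod.intCast_zmod_eq_zero_iff_dvd b 5).mp hb⟩

/-- The class `s_B = 3`, `δ = 2` dies mod 8. -/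
theorem kill_three_two {U V W E : ℤ} (hE : Odd E) (h1 : 3 * U ^ 2 - 2 * V ^ 2 = E ^ 2)
    (h2 : U ^ 2 - 2 * W ^ 2 = 27 * E ^ 2) : False := by
  obtain ⟨k, rfl⟩ := hE
  have e1 := congrArg (Int.cast : ℤ → ZMod 8) h1
  have e2 := congrArg (Int.cast : ℤ → ZMod 8) h2
  push_cast at e1 e2
  have key : ∀ u v w k : ZMod 8, 3 * u ^ 2 - 2 * v ^ 2 = (2 * k + 1) ^ 2 →
      u ^ 2 - 2 * w ^ 2 = 27 * (2 * k + 1) ^ 2 → False := by decide
  exact key _ _ _ _ e1 e2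

/-- The classes with `s_B = 1` and `s_C` even die 2-adically. -/
theorem kill_even {U V W E d : ℤ} (hd : Odd d) (hE : Odd E)
    (h1 : U ^ 2 - 2 * d * V ^ 2 = E ^ 2) (h2 : d * (V ^ 2 - W ^ 2) = 40 * E ^ 2) : False := by
  obtain ⟨l, rfl⟩ := hd
  obtain ⟨k, rfl⟩ := hE
  -- `V` is even
  have hV : Even V := by
    by_contra hV
    rw [Int.not_even_iff_odd] at hV
    obtain ⟨j, rfl⟩ := hV
    have e1 := congrArg (Int.cast : ℤ → ZMod 8) h1
    push_cast at e1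
    have key : ∀ u j k l : ZMod 8,
        u ^ 2 - 2 * (2 * l + 1) * (2 * j + 1) ^ 2 = (2 * k + 1) ^ 2 → False := by decide
    exact key _ _ _ _ e1
  -- `W` is even
  have hW : Even W := by
    by_contra hW
    rw [Int.not_even_iff_odd] at hW
    obtain ⟨j, rfl⟩ := hW
    obtain ⟨v, rfl⟩ := hV
    have e2 := congrArg (Int.cast : ℤ → ZMod 2) h2
    push_cast at e2
    have key : ∀ v j k l : ZMod 2,
        (2 * l + 1) * ((v + v) ^ 2 - (2 * j + 1) ^ 2) = 40 * (2 * k + 1) ^ 2 → False := by decide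
    exact key _ _ _ _ e2
  obtain ⟨v, rfl⟩ := hV
  obtain ⟨w, rfl⟩ := hW
  have h3 : (2 * l + 1) * (v ^ 2 - w ^ 2) = 10 * (2 * k + 1) ^ 2 := by linarith
  have e3 := congrArg (Int.cast : ℤ → ZMod 4) h3
  push_cast at e3
  have key : ∀ v w k l : ZMod 4,
      (2 * l + 1) * (v ^ 2 - w ^ 2) = 10 * (2 * k + 1) ^ 2 → False := by decide
  exact key _ _ _ _ e3

theorem not_both_dvd {a b d : ℤ} (h : IsCoprime a b) (hd : 1 < d) : ¬ (d ∣ a ∧ d ∣ b) := by
  rintro ⟨ha, hb⟩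
  have := h.isUnit_of_dvd' ha hb
  rw [Int.isUnit_iff] at this
  omega

/-- Elimination of all classes except the four torsion classes. -/
theorem classes_elim (U V W E sB sC ε : ℤ) (hsB : sB = 1 ∨ sB = 3)
    (hsC : sC = 1 ∨ sC = 2 ∨ sC = 5 ∨ sC = 10) (hε : ε = 1 ∨ ε = -1)
    (hAB : IsCoprime (E ^ 2) (sB * U ^ 2)) (hAC : IsCoprime (E ^ 2) (ε * sC * V ^ 2))
    (h1 : sB * U ^ 2 - ε * sC * V ^ 2 = E ^ 2)
    (h2 : ε * sC * V ^ 2 - ε * sB * sC * W ^ 2 = 80 * E ^ 2) :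
    sB = 1 ∧ (sC = 1 ∨ sC = 5) := by
  have sq_dvd : ∀ (d : ℤ), d ∣ E → d ∣ E ^ 2 := fun d h => Dvd.dvd.pow h two_ne_zero
  rcases hsB with rfl | rfl
  · -- `sB = 1`
    refine ⟨rfl, ?_⟩
    have hodd : (2 : ℤ) ∣ sC → Odd E := by
      intro h2C
      rw [← Int.not_even_iff_odd, even_iff_two_dvd]
      intro h2E
      exact not_both_dvd hAC (by norm_num) ⟨sq_dvd 2 h2E, Dvd.dvd.mul_right (Dvd.dvd.mul_left h2C ε) _⟩
    rcases hsC with rfl | rfl | rfl | rfl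
    · exact Or.inl rfl
    · exfalso
      have hE := hodd (by norm_num)
      rcases hε with rfl | rfl
      · exact kill_even (U := U) (V := V) (W := W) (d := 1) (by decide) hE (by linarith) (by linarith)
      · exact kill_even (U := U) (V := V) (W := W) (d := -1) (by decide) hE (by linarith) (by linarith)
    · exact Or.inr rfl
    · exfalso
      have hE := hodd (by norm_num)
      rcases hε with rfl | rfl
      · exact kill_even (U := U) (V := V) (W := W) (d := 5) (by decide) hE (by linarith) (by linarith)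
      · exact kill_even (U := U) (V := V) (W := W) (d := -5) (by decide) hE (by linarith) (by linarith)
  · -- `sB = 3`
    exfalso
    have h3E : ¬ (3 : ℤ) ∣ E := fun h =>
      not_both_dvd hAB (by norm_num) ⟨sq_dvd 3 h, Dvd.intro _ rfl⟩
    have h5 : ¬ ((5 : ℤ) ∣ U ∧ (5 : ℤ) ∣ E) := fun h =>
      not_both_dvd hAB (by norm_num) ⟨sq_dvd 5 h.2, Dvd.dvd.mul_left (Dvd.dvd.pow h.1 two_ne_zero) _⟩
    have hodd : (2 : ℤ) ∣ sC → Odd E := by
      intro h2C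
      rw [← Int.not_even_iff_odd, even_iff_two_dvd]
      intro h2E
      exact not_both_dvd hAC (by norm_num) ⟨sq_dvd 2 h2E, Dvd.dvd.mul_right (Dvd.dvd.mul_left h2C ε) _⟩
    -- `δ ≡ 1 mod 3` dies mod 3
    have kill1 : ∀ m : ℤ, 3 * U ^ 2 - (3 * m + 1) * V ^ 2 = E ^ 2 → False := by
      intro m hm
      have : (3 : ℤ) ∣ E ^ 2 + V ^ 2 := ⟨U ^ 2 - m * V ^ 2, by linear_combination -hm⟩
      exact h3E (three_dvd_of_sq_add_sq this).1
    -- `5 ∣ δ` dies mod 5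
    have kill5 : ∀ m : ℤ, 3 * U ^ 2 - 5 * m * V ^ 2 = E ^ 2 → False := by
      intro m hm
      have : (5 : ℤ) ∣ 3 * U ^ 2 - E ^ 2 := ⟨m * V ^ 2, by linear_combination hm⟩
      exact h5 (five_dvd_of_three_mul_sq this)
    rcases hsC with rfl | rfl | rfl | rfl <;> rcases hε with rfl | rfl
    · -- δ = 1
      exact kill1 0 (by linarith)
    · -- δ = -1
      have h3 : U ^ 2 + W ^ 2 = 27 * E ^ 2 := by linarith
      obtain ⟨⟨u, rfl⟩, ⟨w, rfl⟩⟩ := three_dvd_of_sq_add_sq (a := U) (b := W) ⟨9 * E ^ 2, by linarith⟩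
      have h4 : u ^ 2 + w ^ 2 = 3 * E ^ 2 := by linarith
      obtain ⟨⟨u', rfl⟩, ⟨w', rfl⟩⟩ := three_dvd_of_sq_add_sq (a := u) (b := w) ⟨E ^ 2, by linarith⟩
      have h5' : (3 : ℤ) ∣ E ^ 2 + 0 ^ 2 := ⟨u' ^ 2 + w' ^ 2, by linarith⟩
      exact h3E (three_dvd_of_sq_add_sq h5').1
    · -- δ = 2
      exact kill_three_two (U := U) (V := V) (W := W) (hodd (by norm_num)) (by linarith) (by linarith)
    · -- δ = -2
      exact kill1 (-1) (by linarith)
    · -- δ = 5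
      exact kill5 1 (by linarith)
    · -- δ = -5
      exact kill1 (-2) (by linarith)
    · -- δ = 10
      exact kill1 3 (by linarith)
    · -- δ = -10
      exact kill5 (-2) (by linarith)

end Fermat.Agent.S51.KL
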