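import Mathlib

set_option autoImplicit false

namespace Fermat.Agent.S51.KL

/-- If `x ^ 2 * b = u * s * m ^ 2` with `s` squarefree, `u` a unit and `x ≠ 0`, then `s ∣ b`. -/
theorem squarefree_dvd_of_sq_mul_eq {s x b m u : ℤ} (hs : Squarefree s) (hx : x ≠ 0)
    (hu : IsUnit u) (h : x ^ 2 * b = u * s * m ^ 2) : s ∣ b := by
  have hd : 0 < Int.gcd x m := Int.gcd_pos_of_ne_zero_left _ hx
  obtain ⟨x', m', hcop, hx', hm'⟩ := Int.exists_gcd_one hd
  set d : ℤ := (Int.gcd x m : ℤ) with hd_def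
  have hd0 : d ≠ 0 := by
    have : (0 : ℤ) < d := by rw [hd_def]; exact_mod_cast hd
    exact this.ne'
  have h2 : x' ^ 2 * b = u * s * m' ^ 2 := by
    have h3 : d ^ 2 * (x' ^ 2 * b) = d ^ 2 * (u * s * m' ^ 2) := by
      calc d ^ 2 * (x' ^ 2 * b) = (x' * d) ^ 2 * b := by ring
        _ = x ^ 2 * b := by rw [← hx']
        _ = u * s * m ^ 2 := h
        _ = u * s * (m' * d) ^ 2 := by rw [← hm']
        _ = d ^ 2 * (u * s * m' ^ 2) := by ring
    exact mul_left_cancel₀ (pow_ne_zero 2 hd0) h3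
  have hcop' : IsCoprime (x' ^ 2) (m' ^ 2) :=
    (Int.isCoprime_iff_gcd_eq_one.mpr hcop).pow
  have hdvd : x' ^ 2 ∣ u * s := by
    have : x' ^ 2 ∣ (u * s) * m' ^ 2 := ⟨b, h2.symm⟩
    exact hcop'.dvd_of_dvd_mul_right this
  have hdvd' : x' * x' ∣ s := by
    rw [← pow_two]
    exact (hu.dvd_mul_left).mp hdvd
  have hunit : IsUnit x' := hs x' hdvd'
  have hx'sq : x' ^ 2 = 1 := by
    rcases Int.isUnit_iff.mp hunit with h1 | h1 <;> rw [h1] <;> norm_num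
  rw [hx'sq, one_mul] at h2
  exact ⟨u * m' ^ 2, by rw [h2]; ring⟩

theorem exists_squarefree_part (a b n : ℤ) (ha : a ≠ 0) (h : a * b = n ^ 2) :
    ∃ s x ε : ℤ, (ε = 1 ∨ ε = -1) ∧ 0 < s ∧ Squarefree s ∧ a = ε * s * x ^ 2 ∧ s ∣ b := by
  obtain ⟨t, y, hty, ht⟩ := Nat.sq_mul_squarefree a.natAbs
  have hane : a.natAbs ≠ 0 := Int.natAbs_ne_zero.mpr ha
  have ht0 : t ≠ 0 := by
    rintro rfl
    simp at hty
    exact hane hty.symm
  have hy0 : y ≠ 0 := by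
    rintro rfl
    simp at hty
    exact hane hty.symm
  have hs : Squarefree (t : ℤ) := Int.squarefree_natCast.mpr ht
  have hspos : (0 : ℤ) < t := by exact_mod_cast Nat.pos_of_ne_zero ht0
  have hsign : a.sign = 1 ∨ a.sign = -1 := by
    rcases lt_trichotomy a 0 with h | h | h
    · right; exact Int.sign_eq_neg_one_of_neg h
    · exact absurd h ha
    · left; exact Int.sign_eq_one_of_pos h
  have hsign_unit : IsUnit a.sign := Int.isUnit_iff.mpr hsign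
  have hsign_sq : a.sign * a.sign = 1 := by
    rcases hsign with h | h <;> rw [h] <;> norm_num
  have ha_eq : a = a.sign * (t : ℤ) * (y : ℤ) ^ 2 := by
    have h1 : (a.natAbs : ℤ) = (y : ℤ) ^ 2 * t := by exact_mod_cast hty.symm
    calc a = a.sign * (a.natAbs : ℤ) := (Int.sign_mul_natAbs a).symm
      _ = a.sign * (t : ℤ) * (y : ℤ) ^ 2 := by rw [h1]; ring
  refine ⟨t, y, a.sign, hsign, hspos, hs, ha_eq, ?_⟩
  -- `t ∣ n`
  have hy0' : (y : ℤ) ≠ 0 := by exact_mod_cast hy0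
  have htn : (t : ℤ) ∣ n := by
    have : (t : ℤ) ∣ n ^ 2 := by
      rw [← h, ha_eq]
      exact Dvd.dvd.mul_right (Dvd.dvd.mul_right (Dvd.intro_left _ rfl) _) _
    exact (hs.dvd_pow_iff_dvd two_ne_zero).mp this
  obtain ⟨m, rfl⟩ := htn
  have hkey : (y : ℤ) ^ 2 * b = a.sign * (t : ℤ) * m ^ 2 := by
    have h1 : (t : ℤ) * (a.sign * ((y : ℤ) ^ 2 * b)) = (t : ℤ) * ((t : ℤ) * m ^ 2) := by
      calc (t : ℤ) * (a.sign * ((y : ℤ) ^ 2 * b)) = (a.sign * (t : ℤ) * (y : ℤ) ^ 2) * b := by ring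
        _ = a * b := by rw [← ha_eq]
        _ = ((t : ℤ) * m) ^ 2 := h
        _ = (t : ℤ) * ((t : ℤ) * m ^ 2) := by ring
    have h2 : a.sign * ((y : ℤ) ^ 2 * b) = (t : ℤ) * m ^ 2 :=
      mul_left_cancel₀ hspos.ne' h1
    calc (y : ℤ) ^ 2 * b = (a.sign * a.sign) * ((y : ℤ) ^ 2 * b) := by rw [hsign_sq, one_mul]
      _ = a.sign * (a.sign * ((y : ℤ) ^ 2 * b)) := by ring
      _ = a.sign * ((t : ℤ) * m ^ 2) := by rw [h2]
      _ = a.sign * (t : ℤ) * m ^ 2 := by ring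
  exact squarefree_dvd_of_sq_mul_eq hs hy0' hsign_unit hkey

end Fermat.Agent.S51.KL
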