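import Fermat.Agent.S51.KL.Defs
import Fermat.Agent.S51.KL.Kill
import Fermat.Agent.S51.KL.SqfreePart

set_option autoImplicit false

/-!
# The 2-descent classes on `y² = z (z+1) (z-80)`

A nontrivial solution `p q (p+q) (p-80q) = □` with `q > 0` has
`q = E²`, `p + q = U²`, `p = δ V²`, `p - 80 q = δ W²` with `δ ∈ {1, -1, 5, -5}`.
-/

namespace Fermat.Agent.S51.KL

theorem sqfree_dvd_three {s : ℤ} (hs : Squarefree s) (hpos : 0 < s) (h : s ∣ 81) :
    s = 1 ∨ s = 3 := by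
  have h3 : s ∣ 3 := by
    have : s ∣ (3 : ℤ) ^ 4 := by norm_num; exact h
    exact (hs.dvd_pow_iff_dvd (by norm_num)).mp this
  have hle : s ≤ 3 := Int.le_of_dvd (by norm_num) h3
  interval_cases s
  · exact Or.inl rfl
  · norm_num at h3
  · exact Or.inr rfl

theorem sqfree_dvd_ten {s : ℤ} (hs : Squarefree s) (hpos : 0 < s) (h : s ∣ 80) :
    s = 1 ∨ s = 2 ∨ s = 5 ∨ s = 10 := by
  have h10 : s ∣ 10 := by
    have : s ∣ (10 : ℤ) ^ 4 := h.trans (by norm_num)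
    exact (hs.dvd_pow_iff_dvd (by norm_num)).mp this
  have hle : s ≤ 10 := Int.le_of_dvd (by norm_num) h10
  interval_cases s <;> omega

theorem classes (p q : ℤ) (hq : 0 < q) (h : Sol p q) :
    ∃ U V W E δ : ℤ, (δ = 1 ∨ δ = -1 ∨ δ = 5 ∨ δ = -5) ∧ 0 < U ∧ 0 < V ∧ 0 < W ∧ 0 < E ∧
      q = E ^ 2 ∧ p + q = U ^ 2 ∧ p = δ * V ^ 2 ∧ p - 80 * q = δ * W ^ 2 := by
  obtain ⟨hpq, N, hN, hN2⟩ := h
  have hN2pos : 0 < N ^ 2 := by positivity
  -- all four factors are nonzero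
  have hprod_ne : p * q * (p + q) * (p - 80 * q) ≠ 0 := by rw [hN2]; exact hN2pos.ne'
  have hp0 : p ≠ 0 := by rintro rfl; simp at hprod_ne
  have hB0 : p + q ≠ 0 := by intro h0; rw [h0] at hprod_ne; simp at hprod_ne
  have hD0 : p - 80 * q ≠ 0 := by intro h0; rw [h0] at hprod_ne; simp at hprod_ne
  -- coprimality
  obtain ⟨a, b, hab⟩ := hpq
  have hqp : IsCoprime q p := ⟨b, a, by linear_combination hab⟩
  have hqB : IsCoprime q (p + q) := ⟨b - a, a, by linear_combination hab⟩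
  have hqD : IsCoprime q (p - 80 * q) := ⟨b + 80 * a, a, by linear_combination hab⟩
  have hpB : IsCoprime p (p + q) := ⟨a - b, b, by linear_combination hab⟩
  -- Step A : `q` is a square
  obtain ⟨E, hE, hqE⟩ : ∃ E : ℤ, 0 < E ∧ q = E ^ 2 := by
    obtain ⟨s, x, ε, hε, hs, -, hqs, hsd⟩ :=
      exists_squarefree_part q (p * (p + q) * (p - 80 * q)) N hq.ne' (by rw [← hN2]; ring)
    have hcop : IsCoprime q (p * (p + q) * (p - 80 * q)) := (hqp.mul_right hqB).mul_right hqD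
    have hsq : s ∣ q := ⟨ε * x ^ 2, by rw [hqs]; ring⟩
    have hs1 : s = 1 := by
      have := hcop.isUnit_of_dvd' hsq hsd
      rw [Int.isUnit_iff] at this
      omega
    subst hs1
    have hx2 : 0 ≤ x ^ 2 := sq_nonneg x
    rcases hε with rfl | rfl
    · have hx0 : x ≠ 0 := by rintro rfl; simp at hqs; omega
      exact ⟨|x|, abs_pos.mpr hx0, by rw [sq_abs, hqs]; ring⟩
    · exfalso; nlinarith
  -- Step B : `p + q = ε_B s_B U₀²` with `s_B ∣ 3`
  obtain ⟨sB, U₀, εB, hεB, hsBpos, hsBsq, hBeq, hsBd⟩ :=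
    exists_squarefree_part (p + q) (q * p * (p - 80 * q)) N hB0 (by rw [← hN2]; ring)
  have hsB_B : sB ∣ p + q := ⟨εB * U₀ ^ 2, by rw [hBeq]; ring⟩
  have hsB_D : sB ∣ p - 80 * q := by
    have c1 : IsCoprime sB q := (hqB.symm).of_isCoprime_of_dvd_left hsB_B
    have c2 : IsCoprime sB p := (hpB.symm).of_isCoprime_of_dvd_left hsB_B
    exact (c1.mul_right c2).dvd_of_dvd_mul_left hsBd
  have hsB : sB = 1 ∨ sB = 3 := by
    apply sqfree_dvd_three hsBsq hsBpos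
    have c1 : IsCoprime sB q := (hqB.symm).of_isCoprime_of_dvd_left hsB_B
    have : sB ∣ q * 81 := by
      have := dvd_sub hsB_B hsB_D
      have e : p + q - (p - 80 * q) = q * 81 := by ring
      rwa [e] at this
    exact c1.dvd_of_dvd_mul_left this
  -- Step C : `p = ε_C s_C V₀²` with `s_C ∣ 10`
  obtain ⟨sC, V₀, εC, hεC, hsCpos, hsCsq, hCeq, hsCd⟩ :=
    exists_squarefree_part p (q * (p + q) * (p - 80 * q)) N hp0 (by rw [← hN2]; ring)
  have hsC_C : sC ∣ p := ⟨εC * V₀ ^ 2, by rw [hCeq]; ring⟩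
  have hsC_D : sC ∣ p - 80 * q := by
    have c1 : IsCoprime sC q := (hqp.symm).of_isCoprime_of_dvd_left hsC_C
    have c2 : IsCoprime sC (p + q) := hpB.of_isCoprime_of_dvd_left hsC_C
    exact (c1.mul_right c2).dvd_of_dvd_mul_left hsCd
  have hsC : sC = 1 ∨ sC = 2 ∨ sC = 5 ∨ sC = 10 := by
    apply sqfree_dvd_ten hsCsq hsCpos
    have c1 : IsCoprime sC q := (hqp.symm).of_isCoprime_of_dvd_left hsC_C
    have : sC ∣ q * 80 := by
      have := dvd_sub hsC_C hsC_D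
      have e : p - (p - 80 * q) = q * 80 := by ring
      rwa [e] at this
    exact c1.dvd_of_dvd_mul_left this
  have hU₀ : U₀ ≠ 0 := by rintro rfl; apply hB0; rw [hBeq]; ring
  have hV₀ : V₀ ≠ 0 := by rintro rfl; apply hp0; rw [hCeq]; ring
  -- Step D : `p - 80 q = ε_B ε_C s_B s_C W₀²`
  set κ : ℤ := εB * εC * sB * sC with hκ
  have hκsq : Squarefree κ := by
    have hunit : IsUnit (εB * εC) := by
      rw [Int.isUnit_iff]
      rcases hεB with rfl | rfl <;> rcases hεC with rfl | rfl <;> norm_num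
    have hcopBC : IsCoprime sB sC :=
      (hpB.symm.of_isCoprime_of_dvd_left hsB_B).of_isCoprime_of_dvd_right hsC_C
    have : Squarefree (sB * sC) :=
      squarefree_mul_iff.mpr ⟨hcopBC.isRelPrime, hsBsq, hsCsq⟩
    have h2 : κ = (εB * εC) * (sB * sC) := by rw [hκ]; ring
    rw [h2]
    exact squarefree_mul_iff.mpr ⟨hunit.isRelPrime_left, hunit.squarefree, this⟩
  have hκ0 : κ ≠ 0 := hκsq.ne_zero
  have hM0 : E * U₀ * V₀ ≠ 0 := mul_ne_zero (mul_ne_zero hE.ne' hU₀) hV₀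
  have hM : (p - 80 * q) * κ * (E * U₀ * V₀) ^ 2 = N ^ 2 := by
    calc (p - 80 * q) * κ * (E * U₀ * V₀) ^ 2
        = (εC * sC * V₀ ^ 2) * (E ^ 2) * (εB * sB * U₀ ^ 2) * (p - 80 * q) := by rw [hκ]; ring
      _ = p * q * (p + q) * (p - 80 * q) := by rw [← hCeq, ← hqE, ← hBeq]
      _ = N ^ 2 := hN2
  obtain ⟨n', hn'⟩ : E * U₀ * V₀ ∣ N := by
    rw [← Int.pow_dvd_pow_iff two_ne_zero]
    exact ⟨(p - 80 * q) * κ, by rw [← hM]; ring⟩
  have hDκ : (p - 80 * q) * κ = n' ^ 2 := by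
    have : (E * U₀ * V₀) ^ 2 * ((p - 80 * q) * κ) = (E * U₀ * V₀) ^ 2 * n' ^ 2 := by
      rw [← mul_pow, ← hn', ← hM]; ring
    exact mul_left_cancel₀ (pow_ne_zero 2 hM0) this
  obtain ⟨W₀, hW₀⟩ : κ ∣ n' := by
    rw [← hκsq.dvd_pow_iff_dvd two_ne_zero]
    exact ⟨p - 80 * q, by rw [← hDκ]; ring⟩
  have hDeq : p - 80 * q = κ * W₀ ^ 2 := by
    have : κ * (p - 80 * q) = κ * (κ * W₀ ^ 2) := by
      rw [mul_comm, hDκ, hW₀]; ring
    exact mul_left_cancel₀ hκ0 this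
  have hW₀0 : W₀ ≠ 0 := by rintro rfl; apply hD0; rw [hDeq]; ring
  -- signs
  have hεB1 : εB = 1 := by
    rcases hεB with h | h
    · exact h
    · exfalso
      have hpos : 0 < sB * U₀ ^ 2 := by positivity
      have hB : p + q < 0 := by rw [hBeq, h]; linarith
      have hp : p < 0 := by linarith
      have hD : p - 80 * q < 0 := by linarith
      have h1 : p * q < 0 := mul_neg_of_neg_of_pos hp hq
      have h2 : 0 < p * q * (p + q) := mul_pos_of_neg_of_neg h1 hB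
      have h3 : p * q * (p + q) * (p - 80 * q) < 0 := mul_neg_of_pos_of_neg h2 hD
      rw [hN2] at h3
      exact absurd hN2pos (not_lt.mpr h3.le)
  subst hεB1
  -- apply the elimination
  have eB : sB * |U₀| ^ 2 = p + q := by rw [sq_abs, hBeq]; ring
  have eC : εC * sC * |V₀| ^ 2 = p := by rw [sq_abs, hCeq]
  have eD : εC * sB * sC * |W₀| ^ 2 = p - 80 * q := by rw [sq_abs, hDeq, hκ]; ring
  have helim := classes_elim |U₀| |V₀| |W₀| E sB sC εC hsB hsC hεC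
    (by rw [eB, ← hqE]; exact hqB) (by rw [eC, ← hqE]; exact hqp)
    (by rw [eB, eC, ← hqE]; ring) (by rw [eC, eD, ← hqE]; ring)
  obtain ⟨hsB1, hsC15⟩ := helim
  subst hsB1
  refine ⟨|U₀|, |V₀|, |W₀|, E, εC * sC, ?_, abs_pos.mpr hU₀, abs_pos.mpr hV₀, abs_pos.mpr hW₀0, hE,
    hqE, by rw [← eB]; ring, by rw [eC], by rw [← eD]; ring⟩
  rcases hεC with rfl | rfl <;> rcases hsC15 with rfl | rfl <;> norm_num

end Fermat.Agent.S51.KL
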