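import Fermat.Agent.S51.KL.Defs
import Mathlib.Tactic

set_option autoImplicit false

/-!
# Translation of the four descent classes to "class one"

Pure integer algebra: from the data of a solution in one of the four classes
`δ ∈ {1, -1, 5, -5}` we produce a class one quadruple `S1 U' V' W' E'` of controlled size.
-/

namespace Fermat.Agent.S51.KL

/-- Divide a (not necessarily coprime) positive solution of the class one equations by its gcd. -/
theorem exists_S1_of_pos {a b c d : ℤ} (ha : 0 < a) (hb : 0 < b) (hc : 0 < c) (hd : 0 < d)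
    (h1 : a ^ 2 + b ^ 2 = c ^ 2) (h2 : a ^ 2 - 80 * b ^ 2 = d ^ 2) :
    ∃ U' V' W' E' : ℤ, S1 U' V' W' E' ∧ U' ≤ c := by
  have hgnat : 0 < Int.gcd a b := Int.gcd_pos_of_ne_zero_left b ha.ne'
  set g : ℤ := (Int.gcd a b : ℤ) with hg
  have hgpos : 0 < g := Int.natCast_pos.mpr hgnat
  have hga : g ∣ a := Int.gcd_dvd_left a b
  have hgb : g ∣ b := Int.gcd_dvd_right a b
  obtain ⟨a', ha'⟩ := hga
  obtain ⟨b', hb'⟩ := hgb
  have hgc : g ∣ c := by
    have : g ^ 2 ∣ c ^ 2 := by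
      rw [← h1, ha', hb']
      exact ⟨a' ^ 2 + b' ^ 2, by ring⟩
    exact (Int.pow_dvd_pow_iff two_ne_zero).mp this
  have hgd : g ∣ d := by
    have : g ^ 2 ∣ d ^ 2 := by
      rw [← h2, ha', hb']
      exact ⟨a' ^ 2 - 80 * b' ^ 2, by ring⟩
    exact (Int.pow_dvd_pow_iff two_ne_zero).mp this
  obtain ⟨c', hc'⟩ := hgc
  obtain ⟨d', hd'⟩ := hgd
  have ha'pos : 0 < a' := (mul_pos_iff_of_pos_left hgpos).mp (ha' ▸ ha)
  have hb'pos : 0 < b' := (mul_pos_iff_of_pos_left hgpos).mp (hb' ▸ hb)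
  have hc'pos : 0 < c' := (mul_pos_iff_of_pos_left hgpos).mp (hc' ▸ hc)
  have hd'pos : 0 < d' := (mul_pos_iff_of_pos_left hgpos).mp (hd' ▸ hd)
  have hg2 : g ^ 2 ≠ 0 := pow_ne_zero 2 hgpos.ne'
  have hcop : IsCoprime a' b' := by
    rw [Int.isCoprime_iff_gcd_eq_one]
    have h := Int.gcd_div_gcd_div_gcd (i := a) (j := b) hgnat
    have e1 : a / (Int.gcd a b : ℤ) = a' := by
      rw [← hg, ha', Int.mul_ediv_cancel_left _ hgpos.ne']
    have e2 : b / (Int.gcd a b : ℤ) = b' := by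
      rw [← hg, hb', Int.mul_ediv_cancel_left _ hgpos.ne']
    rwa [e1, e2] at h
  refine ⟨c', a', d', b', ⟨hc'pos, ha'pos, hd'pos, hb'pos, hcop, ?_, ?_⟩, ?_⟩
  · have : g ^ 2 * (a' ^ 2 + b' ^ 2) = g ^ 2 * c' ^ 2 := by
      have := h1
      rw [ha', hb', hc'] at this
      linear_combination this
    exact mul_left_cancel₀ hg2 this
  · have : g ^ 2 * (a' ^ 2 - 80 * b' ^ 2) = g ^ 2 * d' ^ 2 := by
      have := h2
      rw [ha', hb', hd'] at this
      linear_combination this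
    exact mul_left_cancel₀ hg2 this
  · rw [hc']
    nlinarith

set_option linter.unusedVariables false in
theorem to_class_one (p q U V W E δ : ℤ) (hδ : δ = 1 ∨ δ = -1 ∨ δ = 5 ∨ δ = -5)
    (hU : 0 < U) (hV : 0 < V) (hW : 0 < W) (hE : 0 < E) (hpq : IsCoprime p q)
    (h0 : q = E ^ 2) (h1 : p + q = U ^ 2) (h2 : p = δ * V ^ 2) (h3 : p - 80 * q = δ * W ^ 2) :
    ∃ U' V' W' E' : ℤ, S1 U' V' W' E' ∧ U' ^ 2 ≤ 81 * max |p| q := by
  have hq0 : 0 < q := by rw [h0]; positivity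
  have hmq : q ≤ max |p| q := le_max_right _ _
  have hmp : |p| ≤ max |p| q := le_max_left _ _
  have hmp' : p ≤ max |p| q := (le_abs_self p).trans hmp
  have hmp'' : -p ≤ max |p| q := (neg_le_abs p).trans hmp
  have hm0 : 0 ≤ max |p| q := le_trans hq0.le hmq
  rcases hδ with rfl | rfl | rfl | rfl
  · -- δ = 1 : (a,b,c,d) = (V,E,U,W)
    obtain ⟨U', V', W', E', hS, hle⟩ := exists_S1_of_pos (a := V) (b := E) (c := U) (d := W)
      hV hE hU hW (by rw [← h1, h2, h0]; ring) (by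
        have : p - 80 * q = W ^ 2 := by rw [h3]; ring
        rw [← this, h2, h0]; ring)
    refine ⟨U', V', W', E', hS, ?_⟩
    have hU'pos : 0 < U' := hS.1
    have : U' ^ 2 ≤ U ^ 2 := by nlinarith
    have hU2 : U ^ 2 = p + q := h1.symm
    nlinarith
  · -- δ = -1 : (a,b,c,d) = (W,U,9E,9V)
    have e1 : E ^ 2 = U ^ 2 + V ^ 2 := by
      have := h1; rw [h2, h0] at this; linarith
    have e2 : W ^ 2 = V ^ 2 + 80 * E ^ 2 := by
      have := h3; rw [h2, h0] at this; linarith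
    obtain ⟨U', V', W', E', hS, hle⟩ := exists_S1_of_pos (a := W) (b := U) (c := 9 * E) (d := 9 * V)
      hW hU (by positivity) (by positivity) (by nlinarith) (by nlinarith)
    refine ⟨U', V', W', E', hS, ?_⟩
    have hU'pos : 0 < U' := hS.1
    have h9 : U' ^ 2 ≤ (9 * E) ^ 2 := by nlinarith
    have h9' : (9 * E) ^ 2 = 81 * q := by rw [h0]; ring
    nlinarith
  · -- δ = 5 : (a,b,c,d) = (4U,W,9V,36E)
    have e1 : U ^ 2 = 5 * V ^ 2 + E ^ 2 := by
      have := h1; rw [h2, h0] at this; linarith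
    have e2 : W ^ 2 = V ^ 2 - 16 * E ^ 2 := by
      have := h3; rw [h2, h0] at this; linarith
    obtain ⟨U', V', W', E', hS, hle⟩ := exists_S1_of_pos (a := 4 * U) (b := W) (c := 9 * V)
      (d := 36 * E) (by positivity) hW (by positivity) (by positivity) (by nlinarith) (by nlinarith)
    refine ⟨U', V', W', E', hS, ?_⟩
    have hU'pos : 0 < U' := hS.1
    have h9 : U' ^ 2 ≤ (9 * V) ^ 2 := by nlinarith
    have hp : p = 5 * V ^ 2 := h2
    have hV2 : 0 ≤ V ^ 2 := sq_nonneg V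
    nlinarith
  · -- δ = -5 : (a,b,c,d) = (4E,V,W,4U)
    have e1 : U ^ 2 = E ^ 2 - 5 * V ^ 2 := by
      have := h1; rw [h2, h0] at this; linarith
    have e2 : W ^ 2 = V ^ 2 + 16 * E ^ 2 := by
      have := h3; rw [h2, h0] at this; linarith
    obtain ⟨U', V', W', E', hS, hle⟩ := exists_S1_of_pos (a := 4 * E) (b := V) (c := W)
      (d := 4 * U) (by positivity) hV hW (by positivity) (by nlinarith) (by nlinarith)
    refine ⟨U', V', W', E', hS, ?_⟩
    have hU'pos : 0 < U' := hS.1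
    have hW2 : U' ^ 2 ≤ W ^ 2 := by nlinarith
    have hp : -p = 5 * V ^ 2 := by rw [h2]; ring
    have hV2 : 0 ≤ V ^ 2 := sq_nonneg V
    nlinarith

end Fermat.Agent.S51.KL
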