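import Mathlib.Algebra.Order.Ring.Abs
import Mathlib.RingTheory.Coprime.Basic
import Mathlib.Tactic.Ring
import Mathlib.Tactic.Linarith

set_option autoImplicit false

/-!
# Rational points on `y² = z (z + 1) (z - 80)` (the curve 15a2): shared definitions

Full 2-descent on the curve `y² = z (z+1) (z-80)` (isomorphic to `y² = x (x-1) (x-81)`), whose
rational torsion is exactly its 2-torsion, so that no translation by 4-torsion points is needed.
Writing `z = p / q` in lowest terms, a rational point with `y ≠ 0` is a *nontrivial solution*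
`Sol p q` of `p q (p+q) (p-80q) = □`.
-/

namespace Fermat.Agent.S51.KL

/-- A nontrivial coprime solution of `p q (p+q) (p-80q) = □`. -/
def Sol (p q : ℤ) : Prop :=
  IsCoprime p q ∧ ∃ N : ℤ, N ≠ 0 ∧ p * q * (p + q) * (p - 80 * q) = N ^ 2

/-- A "class one" quadruple: `z = V²/E²`, `z+1 = U²/E²`, `z-80 = W²/E²`. -/
def S1 (U V W E : ℤ) : Prop :=
  0 < U ∧ 0 < V ∧ 0 < W ∧ 0 < E ∧ IsCoprime V E ∧
    V ^ 2 + E ^ 2 = U ^ 2 ∧ V ^ 2 - 80 * E ^ 2 = W ^ 2

theorem Sol.neg {p q : ℤ} (h : Sol p q) : Sol (-p) (-q) := by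
  obtain ⟨hc, N, hN, hN2⟩ := h
  refine ⟨hc.neg_neg, N, hN, ?_⟩
  rw [← hN2]; ring

theorem Sol.q_ne_zero {p q : ℤ} (h : Sol p q) : q ≠ 0 := by
  rintro rfl
  obtain ⟨-, N, hN, hN2⟩ := h
  apply hN
  have : N ^ 2 = 0 := by rw [← hN2]; ring
  exact pow_eq_zero_iff (two_ne_zero) |>.mp this

end Fermat.Agent.S51.KL
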