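import Fermat.Agent.S51.KL.Defs
import Mathlib.Algebra.GCDMonoid.Nat
import Mathlib.RingTheory.Int.Basic
import Mathlib.Tactic.NormNum
import Mathlib.Tactic.Positivity
import Mathlib.Tactic.LinearCombination
import Mathlib.Tactic.Linarith

set_option autoImplicit false

/-!
# KL-H halving step: an `S1` quadruple gives a new nontrivial `Sol` of height `≤ 2U`
(lemma-queue item 24; owner helper26)
-/

namespace Fermat.Agent.S51.KL

/-- If `X * D ^ 2 = Y ^ 2` with `D ≠ 0`, then `X` is a square `M ^ 2` with `Y = D * M`. -/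
theorem Halve.exists_sq_of_mul_sq_eq_sq {X D Y : ℤ} (hD : D ≠ 0) (h : X * D ^ 2 = Y ^ 2) :
    ∃ M : ℤ, Y = D * M ∧ X = M ^ 2 := by
  have hdvd : D ∣ Y := by
    rw [← Int.pow_dvd_pow_iff (n := 2) two_ne_zero]
    exact ⟨X, by rw [← h]; ring⟩
  obtain ⟨M, rfl⟩ := hdvd
  refine ⟨M, rfl, ?_⟩
  have hD2 : D ^ 2 ≠ 0 := pow_ne_zero 2 hD
  apply mul_right_cancel₀ hD2
  rw [h]; ring

theorem halve (U V W E : ℤ) (h : S1 U V W E) :
    ∃ r s : ℤ, 0 < s ∧ Sol r s ∧ |r| ≤ 2 * U ∧ s ≤ 2 * U := by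
  obtain ⟨hU, hV, hW, hE, -, h1, h2⟩ := h
  -- order relations
  have hVU : V < U := by nlinarith
  have hWV : W < V := by nlinarith
  -- the four quantities
  have ha : 0 < V + W := by linarith
  have hb : 0 < U - V := by linarith
  have hUV : 0 < U + V := by linarith
  have hc : 0 < U + W := by linarith
  -- key identity
  have hkey : (V + W) * (U + W) = (U + V) * (81 * V + W - 80 * U) := by
    linear_combination (-80 : ℤ) * h1 - h2
  have hE2 : E ^ 2 = (U - V) * (U + V) := by linear_combination h1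
  have hX : ((V + W) * (U - V) * (U + W) * (81 * V + W - 80 * U)) * (U + V) ^ 2 =
      ((V + W) * (U + W) * E) ^ 2 := by
    have : ((V + W) * (U - V) * (U + W) * (81 * V + W - 80 * U)) * (U + V) ^ 2 =
        ((V + W) * (U + W)) * ((U - V) * (U + V)) * ((U + V) * (81 * V + W - 80 * U)) := by ring
    rw [this, ← hkey, ← hE2]; ring
  obtain ⟨M, hYM, hXM⟩ := Halve.exists_sq_of_mul_sq_eq_sq hUV.ne' hX
  have hM : M ≠ 0 := by
    rintro rfl
    have : (V + W) * (U + W) * E = 0 := by rw [hYM]; ring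
    have hpos : 0 < (V + W) * (U + W) * E := by positivity
    exact hpos.ne' this
  -- divide out the gcd
  set g : ℤ := (Int.gcd (V + W) (U - V) : ℤ) with hg
  have hg0 : g ≠ 0 := by
    rw [hg]
    exact_mod_cast (Int.gcd_pos_of_ne_zero_left _ ha.ne').ne'
  have hgpos : 0 < g := by
    rw [hg]
    exact_mod_cast Int.gcd_pos_of_ne_zero_left _ ha.ne'
  obtain ⟨r, hr⟩ : g ∣ V + W := by rw [hg]; exact Int.gcd_dvd_left _ _
  obtain ⟨s, hs⟩ : g ∣ U - V := by rw [hg]; exact Int.gcd_dvd_right _ _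
  have hrpos : 0 < r := by
    rcases lt_trichotomy r 0 with h | h | h
    · nlinarith
    · rw [h, mul_zero] at hr; linarith
    · exact h
  have hspos : 0 < s := by
    rcases lt_trichotomy s 0 with h | h | h
    · nlinarith
    · rw [h, mul_zero] at hs; linarith
    · exact h
  have hcop : IsCoprime r s := by
    rw [Int.isCoprime_iff_gcd_eq_one]
    have h3 : Int.gcd (V + W) (U - V) = Int.gcd (V + W) (U - V) * Int.gcd r s := by
      conv_lhs => rw [hr, hs, Int.gcd_mul_left]
      rw [hg, Int.natAbs_natCast]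
    have h4 : 0 < Int.gcd (V + W) (U - V) := Int.gcd_pos_of_ne_zero_left _ ha.ne'
    exact (Nat.eq_of_mul_eq_mul_left h4 (by rw [mul_one]; exact h3.symm))
  -- the square
  have hX2 : (r * s * (r + s) * (r - 80 * s)) * (g ^ 2) ^ 2 = M ^ 2 := by
    rw [← hXM]
    have e1 : U + W = g * (r + s) := by linear_combination hr + hs
    have e2 : 81 * V + W - 80 * U = g * (r - 80 * s) := by linear_combination hr - 80 * hs
    rw [hr, hs, e1, e2]; ring
  obtain ⟨N, hMN, hN2⟩ := Halve.exists_sq_of_mul_sq_eq_sq (pow_ne_zero 2 hg0) hX2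
  have hN : N ≠ 0 := by
    rintro rfl
    exact hM (by rw [hMN, mul_zero])
  refine ⟨r, s, hspos, ⟨hcop, N, hN, hN2⟩, ?_, ?_⟩
  · rw [abs_of_pos hrpos]
    have : r ≤ V + W := by
      rw [hr]; nlinarith
    linarith
  · have : s ≤ U - V := by
      rw [hs]; nlinarith
    linarith

end Fermat.Agent.S51.KL
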