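import Mathlib
import Fermat.Agent.S51.KL.Defs

set_option autoImplicit false

namespace Fermat.Agent.S51.KL

theorem rat_KL (hno : ∀ p q : ℤ, ¬ Sol p q) (z w : ℚ) (h : w ^ 2 = z * (z + 1) * (z - 80)) :
    z = 0 ∨ z = -1 ∨ z = 80 := by
  set p : ℤ := z.num with hp
  set q : ℤ := (z.den : ℤ) with hq
  have hq0 : q ≠ 0 := by rw [hq]; exact_mod_cast z.den_nz
  have hqQ : (q : ℚ) ≠ 0 := by exact_mod_cast hq0
  have hz : z = (p : ℚ) / (q : ℚ) := by
    rw [hp, hq]; exact_mod_cast (Rat.num_div_den z).symm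
  have hcop : IsCoprime p q := by
    rw [Int.isCoprime_iff_gcd_eq_one, hp, hq]
    have := z.reduced
    simpa [Int.gcd, Nat.Coprime] using this
  have hsq : (w * q ^ 2) ^ 2 = ((p * q * (p + q) * (p - 80 * q) : ℤ) : ℚ) := by
    push_cast
    rw [mul_pow, h, hz]
    field_simp
  have hIs : IsSquare (p * q * (p + q) * (p - 80 * q) : ℤ) := by
    rw [← Rat.isSquare_intCast_iff, ← hsq]
    exact ⟨w * q ^ 2, by ring⟩
  obtain ⟨N, hN⟩ := hIs
  by_cases hN0 : N = 0
  · rw [hN0, mul_zero] at hN
    rcases mul_eq_zero.mp hN with h1 | h1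
    · rcases mul_eq_zero.mp h1 with h2 | h2
      · rcases mul_eq_zero.mp h2 with h3 | h3
        · left; rw [hz, h3]; simp
        · exact absurd h3 hq0
      · right; left
        rw [hz, div_eq_iff hqQ]
        have : (p : ℚ) + q = 0 := by exact_mod_cast h2
        linarith
    · right; right
      rw [hz, div_eq_iff hqQ]
      have : (p : ℚ) - 80 * q = 0 := by exact_mod_cast h1
      linarith
  · exact absurd ⟨hcop, N, hN0, by rw [hN]; ring⟩ (hno p q)

theorem rat_points_15a1
    (hKL : ∀ z w : ℚ, w ^ 2 = z * (z + 1) * (z - 80) → z = 0 ∨ z = -1 ∨ z = 80)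
    (x y : ℚ) (h : y ^ 2 = x * (x + 9) * (x - 16)) : y = 0 ∨ x = 36 ∨ x = -4 := by
  by_cases hX : x - 16 = 0
  · left
    have : y ^ 2 = 0 := by rw [h, hX, mul_zero]
    exact pow_eq_zero_iff two_ne_zero |>.mp this
  · set X := x - 16 with hXdef
    have hx : x = X + 16 := by rw [hXdef]; ring
    have key := hKL ((X + 20) ^ 2 / X) ((X ^ 2 - 400) / X ^ 2 * y) (by
      rw [mul_pow, h, hx]
      field_simp
      ring)
    rcases key with h1 | h1 | h1
    · right; right
      rw [div_eq_zero_iff] at h1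
      rcases h1 with h1 | h1
      · have : X + 20 = 0 := pow_eq_zero_iff two_ne_zero |>.mp h1
        rw [hx]; linarith
      · exact absurd h1 hX
    · left
      rw [div_eq_iff hX] at h1
      have h2 : (X + 16) * (X + 25) = 0 := by linear_combination h1
      have h3 : y ^ 2 = 0 := by
        rw [h, hx]
        rcases mul_eq_zero.mp h2 with h4 | h4
        · have : X = -16 := by linarith
          rw [this]; ring
        · have : X = -25 := by linarith
          rw [this]; ring
      exact pow_eq_zero_iff two_ne_zero |>.mp h3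
    · right; left
      rw [div_eq_iff hX] at h1
      have h2 : (X - 20) ^ 2 = 0 := by linear_combination h1
      have : X - 20 = 0 := pow_eq_zero_iff two_ne_zero |>.mp h2
      rw [hx]; linarith

theorem descent15
    (hKL : ∀ z w : ℚ, w ^ 2 = z * (z + 1) * (z - 80) → z = 0 ∨ z = -1 ∨ z = 80)
    (X Y : ℚ) (h : Y ^ 2 = X * (X - 9) * (X - 25)) : Y = 0 ∨ X = 45 ∨ X = 5 := by
  rcases rat_points_15a1 hKL (X - 9) Y (by rw [h]; ring) with h1 | h1 | h1
  · left; exact h1
  · right; left; linarith
  · right; right; linarith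

end Fermat.Agent.S51.KL
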