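import Mathlib

/-!
# S51 / KL-S: small cases

No quadruple `(U, V, W, E)` of positive integers with
`δ V² + E² = U²`, `δ V² - 80 E² = δ W²`, `δ ∈ {1, -1, 5, -5}` has
`max |δ V²| E² ≤ 324`.  Finite check (via the `norm_num` extension for `IsSquare`).
-/

set_option autoImplicit false
set_option linter.unusedTactic false
set_option linter.unreachableTactic false
set_option linter.unnecessarySeqFocus false

namespace Fermat.Agent.S51.KL

theorem no_small (U V W E δ : ℤ) (hδ : δ = 1 ∨ δ = -1 ∨ δ = 5 ∨ δ = -5)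
    (hU : 0 < U) (hV : 0 < V) (hW : 0 < W) (hE : 0 < E)
    (h1 : δ * V ^ 2 + E ^ 2 = U ^ 2) (h3 : δ * V ^ 2 - 80 * E ^ 2 = δ * W ^ 2) :
    324 < max |δ * V ^ 2| (E ^ 2) := by
  by_contra hcon
  rw [not_lt, max_le_iff] at hcon
  obtain ⟨hV2, hE2⟩ := hcon
  have hE18 : E ≤ 18 := by nlinarith
  have hU2 : 0 < U ^ 2 := by positivity
  have hW2 : 0 < W ^ 2 := by positivity
  rcases hδ with rfl | rfl | rfl | rfl
  · -- δ = 1 : V² + E² = U², V² - 80 E² = W²
    have hV2' : V ^ 2 ≤ 324 := by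
      have := (abs_le.mp hV2).2
      linarith
    have hV18 : V ≤ 18 := by nlinarith
    have hs1 : IsSquare (V ^ 2 + E ^ 2) := ⟨U, by rw [← sq]; linarith⟩
    have hs3 : IsSquare (V ^ 2 - 80 * E ^ 2) := ⟨W, by rw [← sq]; linarith⟩
    have hp3 : 0 < V ^ 2 - 80 * E ^ 2 := by linarith
    have hE2 : E ≤ 2 := by nlinarith
    interval_cases E <;> interval_cases V <;>
      first | (norm_num at hp3; done) | (norm_num at hs1; done) | (norm_num at hs3; done)
  · -- δ = -1 : E² - V² = U², V² + 80 E² = W²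
    have hV2' : V ^ 2 ≤ 324 := by
      have := (abs_le.mp hV2).1
      linarith
    have hV18 : V ≤ 18 := by nlinarith
    have hs1 : IsSquare (E ^ 2 - V ^ 2) := ⟨U, by rw [← sq]; linarith⟩
    have hs3 : IsSquare (V ^ 2 + 80 * E ^ 2) := ⟨W, by rw [← sq]; linarith⟩
    have hp1 : 0 < E ^ 2 - V ^ 2 := by linarith
    interval_cases E <;> interval_cases V <;>
      first | (norm_num at hp1; done) | (norm_num at hs1; done) | (norm_num at hs3; done)
  · -- δ = 5 : 5 V² + E² = U², V² - 16 E² = W²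
    have hV2' : 5 * V ^ 2 ≤ 324 := by
      have := (abs_le.mp hV2).2
      linarith
    have hV8 : V ≤ 8 := by nlinarith
    have hs1 : IsSquare (5 * V ^ 2 + E ^ 2) := ⟨U, by rw [← sq]; linarith⟩
    have hs3 : IsSquare (V ^ 2 - 16 * E ^ 2) := ⟨W, by rw [← sq]; linarith⟩
    have hp3 : 0 < V ^ 2 - 16 * E ^ 2 := by linarith
    have hE1 : E ≤ 1 := by nlinarith
    interval_cases E <;> interval_cases V <;>
      first | (norm_num at hp3; done) | (norm_num at hs1; done) | (norm_num at hs3; done)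
  · -- δ = -5 : E² - 5 V² = U², V² + 16 E² = W²
    have hV2' : 5 * V ^ 2 ≤ 324 := by
      have := (abs_le.mp hV2).1
      linarith
    have hV8 : V ≤ 8 := by nlinarith
    have hs1 : IsSquare (E ^ 2 - 5 * V ^ 2) := ⟨U, by rw [← sq]; linarith⟩
    have hs3 : IsSquare (V ^ 2 + 16 * E ^ 2) := ⟨W, by rw [← sq]; linarith⟩
    have hp1 : 0 < E ^ 2 - 5 * V ^ 2 := by linarith
    interval_cases E <;> interval_cases V <;>
      first | (norm_num at hp1; done) | (norm_num at hs1; done) | (norm_num at hs3; done)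

end Fermat.Agent.S51.KL
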