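import Fermat.Agent.S51.KL.Defs
import Fermat.Agent.S51.KL.Classes
import Fermat.Agent.S51.KL.ClassOne
import Fermat.Agent.S51.KL.Halve
import Fermat.Agent.S51.KL.Small
import Fermat.Agent.S51.KL.Rat

set_option autoImplicit false

/-!
# Rational points on the curves 15a1 / 15a2: the infinite descent

Assembly of the full 2-descent on `y² = z (z+1) (z-80)`:
`classes` (the four 2-descent classes), `to_class_one` (translation by 2-torsion),
`halve` (halving, with the height bound `≤ 2U`), `no_small` (finite check)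
give `no_sol : ¬ Sol p q`; the rational bridge then yields the rational points of
`y² = x (x+9) (x-16)` and `Y² = X (X-9) (X-25)`.
-/

namespace Fermat.Agent.S51.KL

/-- Infinite descent: there is no nontrivial solution with `q > 0` of any height. -/
theorem no_sol_pos : ∀ (n : ℕ) (p q : ℤ), 0 < q → Sol p q → max |p| q = n → False := by
  intro n
  induction n using Nat.strong_induction_on with
  | _ n ih =>
    intro p q hq h hn
    obtain ⟨U, V, W, E, δ, hδ, hU, hV, hW, hE, h0, h1, h2, h3⟩ := classes p q hq h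
    obtain ⟨U', V', W', E', hS1, hU'⟩ :=
      to_class_one p q U V W E δ hδ hU hV hW hE h.1 h0 h1 h2 h3
    obtain ⟨r, s, hs, hrs, hr2, hs2⟩ := halve U' V' W' E' hS1
    have hsmall : 324 < max |p| q := by
      have := no_small U V W E δ hδ hU hV hW hE (by rw [← h2, ← h0]; exact h1)
        (by rw [← h2, ← h0]; exact h3)
      rwa [← h2, ← h0] at this
    have hU'pos : 0 < U' := hS1.1
    have hmax : max |r| s ≤ 2 * U' := max_le hr2 hs2
    have hn' : (324 : ℤ) < n := by rw [← hn]; exact hsmall
    have hlt : max |r| s < n := by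
      by_contra hge
      rw [not_lt] at hge
      have h1' : (n : ℤ) ≤ 2 * U' := hge.trans hmax
      have h2' : (n : ℤ) ^ 2 ≤ (2 * U') ^ 2 := pow_le_pow_left₀ (by positivity) h1' 2
      have h3' : (2 * U') ^ 2 ≤ 324 * (n : ℤ) := by
        rw [← hn]; nlinarith
      nlinarith
    have hnn : 0 ≤ max |r| s := le_max_of_le_left (abs_nonneg r)
    obtain ⟨m, hm⟩ := Int.eq_ofNat_of_zero_le hnn
    exact ih m (by exact_mod_cast hm ▸ hlt) r s hs hrs hm

/-- The equation `p q (p+q) (p-80q) = N²` has no coprime solution with `N ≠ 0`. -/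
theorem no_sol (p q : ℤ) : ¬ Sol p q := by
  intro h
  rcases lt_trichotomy q 0 with hq | hq | hq
  · have h' := h.neg
    have hn : 0 ≤ max |(-p)| (-q) := le_max_of_le_left (abs_nonneg _)
    obtain ⟨m, hm⟩ := Int.eq_ofNat_of_zero_le hn
    exact no_sol_pos m (-p) (-q) (by omega) h' hm
  · exact h.q_ne_zero hq
  · have hn : 0 ≤ max |p| q := le_max_of_le_left (abs_nonneg _)
    obtain ⟨m, hm⟩ := Int.eq_ofNat_of_zero_le hn
    exact no_sol_pos m p q hq h hm

/-- Rational points of `w² = z (z+1) (z-80)` (the curve 15a2): only the 2-torsion. -/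
theorem rat_points_15a2 (z w : ℚ) (h : w ^ 2 = z * (z + 1) * (z - 80)) :
    z = 0 ∨ z = -1 ∨ z = 80 :=
  rat_KL no_sol z w h

/-- Rational points of `y² = x (x+9) (x-16)` (the curve 15a1 = `X₀(15)`). -/
theorem rat_points_15a1' (x y : ℚ) (h : y ^ 2 = x * (x + 9) * (x - 16)) :
    y = 0 ∨ x = 36 ∨ x = -4 :=
  rat_points_15a1 rat_points_15a2 x y h

/-- Rational points of `Y² = X (X-9) (X-25)` (the curve 15a1 = `X₀(15)`, shifted). -/
theorem descent15' (X Y : ℚ) (h : Y ^ 2 = X * (X - 9) * (X - 25)) : Y = 0 ∨ X = 45 ∨ X = 5 :=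
  descent15 rat_points_15a2 X Y h

end Fermat.Agent.S51.KL
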