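import Fermat.Agent.S51.KL.Defs
import Mathlib.Data.ZMod.Basic
import Mathlib.Tactic

set_option autoImplicit false

/-!
# KL (A), elimination half: of the 16 candidate classes only the four torsion classes survive

If `q = E²`, `p + q = b U²`, `p = a V²`, `p - 80 q = a b W²` with `p, q` coprime,
`a ∈ {±1, ±2, ±5, ±10}` and `b ∈ {1, 3}`, then `b = 1` and `a ∈ {±1, ±5}`.
-/

namespace Fermat.Agent.S51.KL

namespace Elim

theorem false_of_dvd {p q : ℤ} (h : IsCoprime p q) (l : ℤ) (hl : 1 < l) (hp : l ∣ p) (hq : l ∣ q) :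
    False := by
  have hu := h.isUnit_of_dvd' hp hq
  rw [Int.isUnit_iff] at hu
  omega

theorem dvd_of_cast3 {x : ℤ} (h : (x : ZMod 3) = 0) : (3 : ℤ) ∣ x := by
  exact_mod_cast (ZMod.intCast_zmod_eq_zero_iff_dvd x 3).mp h

theorem dvd_of_cast5 {x : ℤ} (h : (x : ZMod 5) = 0) : (5 : ℤ) ∣ x := by
  exact_mod_cast (ZMod.intCast_zmod_eq_zero_iff_dvd x 5).mp h

theorem two_dvd_of_cast8 {x : ℤ} (h : (4 : ZMod 8) * (x : ZMod 8) = 0) : (2 : ℤ) ∣ x := by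
  have h' : ((4 * x : ℤ) : ZMod 8) = 0 := by push_cast; exact h
  have h8 : ((8 : ℕ) : ℤ) ∣ 4 * x := (ZMod.intCast_zmod_eq_zero_iff_dvd (4 * x) 8).mp h'
  omega

theorem two_dvd_of_cast16 {x : ℤ} (h : (8 : ZMod 16) * (x : ZMod 16) = 0) : (2 : ℤ) ∣ x := by
  have h' : ((8 * x : ℤ) : ZMod 16) = 0 := by push_cast; exact h
  have h16 : ((16 : ℕ) : ℤ) ∣ 8 * x := (ZMod.intCast_zmod_eq_zero_iff_dvd (8 * x) 16).mp h'
  omega

theorem cast16_of_two_dvd {x : ℤ} (h : (2 : ℤ) ∣ x) : (8 : ZMod 16) * (x : ZMod 16) = 0 := by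
  have h' : ((8 * x : ℤ) : ZMod 16) = 0 := by
    rw [ZMod.intCast_zmod_eq_zero_iff_dvd (8 * x) 16]
    omega
  push_cast at h'; exact h'

/-- mod 3: `x² + y² = 0` forces `x = y = 0`. -/
theorem zmod3_sq_add_sq : ∀ x y : ZMod 3, x ^ 2 + y ^ 2 = 0 → x = 0 ∧ y = 0 := by decide

/-- mod 5: `x² = 3 y²` forces `x = 0`. -/
theorem zmod5_sq_eq_three_sq : ∀ x y : ZMod 5, x ^ 2 = 3 * y ^ 2 → x = 0 := by decide

/-- mod 8, class `a = 2`, `b = 3`. -/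
theorem zmod8_a2_b3 : ∀ v w e u : ZMod 8,
    v ^ 2 = 3 * w ^ 2 → 2 * v ^ 2 + e ^ 2 = 3 * u ^ 2 → 4 * e = 0 := by decide

/-- mod 8, classes `a = 2a'`, `b = 1`: `E` odd forces `V` even. -/
theorem zmod8_even (a : ZMod 8) (ha : a = 1 ∨ a = -1 ∨ a = 5 ∨ a = -5) : ∀ v e u : ZMod 8,
    2 * a * v ^ 2 + e ^ 2 = u ^ 2 → 4 * e = 0 ∨ 4 * v = 0 := by
  rcases ha with rfl | rfl | rfl | rfl <;> decide

set_option maxRecDepth 100000 in
/-- mod 16, classes `a = 2a'`, `b = 1`: `E` odd forces `V` odd. -/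
theorem zmod16_even (a : ZMod 16) (ha : a = 1 ∨ a = -1 ∨ a = 5 ∨ a = -5) : ∀ v w e : ZMod 16,
    a * (v ^ 2 - w ^ 2) = 40 * e ^ 2 → 8 * e = 0 ∨ 8 * v ≠ 0 := by
  rcases ha with rfl | rfl | rfl | rfl <;> decide

end Elim

open Elim

/-- `b = 3`, `a ≡ 1 mod 3`: dies mod 3. -/
theorem elim_b3_mod3 (p q U V E a : ℤ) (hcop : IsCoprime p q)
    (ha : (a : ZMod 3) = 1)
    (h0 : q = E ^ 2) (h1 : p + q = 3 * U ^ 2) (h2 : p = a * V ^ 2) : False := by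
  have hI : a * V ^ 2 + E ^ 2 = 3 * U ^ 2 := by rw [← h2, ← h0]; exact h1
  have hI3 : ((a * V ^ 2 + E ^ 2 : ℤ) : ZMod 3) = ((3 * U ^ 2 : ℤ) : ZMod 3) := congrArg _ hI
  push_cast at hI3
  rw [ha] at hI3
  have h3 : (3 : ZMod 3) = 0 := by decide
  rw [h3, zero_mul, one_mul] at hI3
  obtain ⟨hV, hE⟩ := zmod3_sq_add_sq _ _ hI3
  have hV3 := dvd_of_cast3 hV
  have hE3 := dvd_of_cast3 hE
  refine false_of_dvd hcop 3 (by norm_num) ?_ ?_
  · rw [h2]; exact Dvd.dvd.mul_left (dvd_pow hV3 two_ne_zero) _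
  · rw [h0]; exact dvd_pow hE3 two_ne_zero

/-- `b = 3`, `5 ∣ a`: dies mod 5. -/
theorem elim_b3_five_dvd (p q U V E a : ℤ) (hcop : IsCoprime p q)
    (ha : (5 : ℤ) ∣ a)
    (h0 : q = E ^ 2) (h1 : p + q = 3 * U ^ 2) (h2 : p = a * V ^ 2) : False := by
  have hI : a * V ^ 2 + E ^ 2 = 3 * U ^ 2 := by rw [← h2, ← h0]; exact h1
  have hI5 : ((a * V ^ 2 + E ^ 2 : ℤ) : ZMod 5) = ((3 * U ^ 2 : ℤ) : ZMod 5) := congrArg _ hI
  have ha5 : ((a : ℤ) : ZMod 5) = 0 := by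
    rw [ZMod.intCast_zmod_eq_zero_iff_dvd a 5]; exact_mod_cast ha
  push_cast at hI5
  rw [ha5, zero_mul, zero_add] at hI5
  have hE5 := dvd_of_cast5 (zmod5_sq_eq_three_sq _ _ hI5)
  refine false_of_dvd hcop 5 (by norm_num) ?_ ?_
  · rw [h2]; exact Dvd.dvd.mul_right ha _
  · rw [h0]; exact dvd_pow hE5 two_ne_zero

/-- `b = 3`, `a = -1`: dies mod 5. -/
theorem elim_b3_neg_one (p q U V W E : ℤ) (hcop : IsCoprime p q)
    (h0 : q = E ^ 2) (h1 : p + q = 3 * U ^ 2) (h2 : p = -1 * V ^ 2)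
    (h3 : p - 80 * q = -1 * 3 * W ^ 2) : False := by
  have hI : E ^ 2 = 3 * U ^ 2 + V ^ 2 := by rw [h2, h0] at h1; linarith
  have hII : V ^ 2 = 3 * W ^ 2 - 5 * (16 * E ^ 2) := by rw [h2, h0] at h3; linarith
  have hII5 : ((V ^ 2 : ℤ) : ZMod 5) = ((3 * W ^ 2 - 5 * (16 * E ^ 2) : ℤ) : ZMod 5) :=
    congrArg _ hII
  have h5 : (5 : ZMod 5) = 0 := by decide
  push_cast at hII5
  rw [h5, zero_mul, sub_zero] at hII5
  have hV := zmod5_sq_eq_three_sq _ _ hII5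
  have hI5 : ((E ^ 2 : ℤ) : ZMod 5) = ((3 * U ^ 2 + V ^ 2 : ℤ) : ZMod 5) := congrArg _ hI
  push_cast at hI5
  rw [hV, zero_pow two_ne_zero, add_zero] at hI5
  have hE := zmod5_sq_eq_three_sq _ _ hI5
  have hV5 := dvd_of_cast5 hV
  have hE5 := dvd_of_cast5 hE
  refine false_of_dvd hcop 5 (by norm_num) ?_ ?_
  · rw [h2]; exact Dvd.dvd.mul_left (dvd_pow hV5 two_ne_zero) _
  · rw [h0]; exact dvd_pow hE5 two_ne_zero

/-- `b = 3`, `a = 2`: dies mod 8. -/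
theorem elim_b3_two (p q U V W E : ℤ) (hcop : IsCoprime p q)
    (h0 : q = E ^ 2) (h1 : p + q = 3 * U ^ 2) (h2 : p = 2 * V ^ 2)
    (h3 : p - 80 * q = 2 * 3 * W ^ 2) : False := by
  have hI : 2 * V ^ 2 + E ^ 2 = 3 * U ^ 2 := by rw [h2, h0] at h1; linarith
  have hII : V ^ 2 = 3 * W ^ 2 + 8 * (5 * E ^ 2) := by rw [h2, h0] at h3; linarith
  have hII8 : ((V ^ 2 : ℤ) : ZMod 8) = ((3 * W ^ 2 + 8 * (5 * E ^ 2) : ℤ) : ZMod 8) :=
    congrArg _ hII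
  have h8 : (8 : ZMod 8) = 0 := by decide
  push_cast at hII8
  rw [h8, zero_mul, add_zero] at hII8
  have hI8 : ((2 * V ^ 2 + E ^ 2 : ℤ) : ZMod 8) = ((3 * U ^ 2 : ℤ) : ZMod 8) := congrArg _ hI
  push_cast at hI8
  have hE2 := two_dvd_of_cast8 (zmod8_a2_b3 _ _ _ _ hII8 hI8)
  refine false_of_dvd hcop 2 (by norm_num) ?_ ?_
  · rw [h2]; exact Dvd.intro _ rfl
  · rw [h0]; exact dvd_pow hE2 two_ne_zero

/-- `b = 1`, `a = 2 a'` with `a'` odd: dies 2-adically. -/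
theorem elim_b1_even (p q U V W E a' : ℤ) (hcop : IsCoprime p q)
    (ha' : a' = 1 ∨ a' = -1 ∨ a' = 5 ∨ a' = -5)
    (h0 : q = E ^ 2) (h1 : p + q = U ^ 2) (h2 : p = 2 * a' * V ^ 2)
    (h3 : p - 80 * q = 2 * a' * W ^ 2) : False := by
  have hEodd : ¬ (2 : ℤ) ∣ E := by
    intro hE2
    refine false_of_dvd hcop 2 (by norm_num) ?_ ?_
    · rw [h2, mul_assoc]; exact Dvd.intro _ rfl
    · rw [h0]; exact dvd_pow hE2 two_ne_zero
  have hI : 2 * a' * V ^ 2 + E ^ 2 = U ^ 2 := by rw [h2, h0] at h1; linarith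
  have hII : a' * (V ^ 2 - W ^ 2) = 40 * E ^ 2 := by rw [h2, h0] at h3; linarith
  -- mod 8: V is even
  have hI8 : ((2 * a' * V ^ 2 + E ^ 2 : ℤ) : ZMod 8) = ((U ^ 2 : ℤ) : ZMod 8) := congrArg _ hI
  push_cast at hI8
  have ha8 : ((a' : ℤ) : ZMod 8) = 1 ∨ ((a' : ℤ) : ZMod 8) = -1 ∨ ((a' : ℤ) : ZMod 8) = 5 ∨
      ((a' : ℤ) : ZMod 8) = -5 := by
    rcases ha' with rfl | rfl | rfl | rfl <;> simp
  have hV2 : (2 : ℤ) ∣ V := by
    rcases zmod8_even _ ha8 _ _ _ hI8 with h | h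
    · exact absurd (two_dvd_of_cast8 h) hEodd
    · exact two_dvd_of_cast8 h
  -- mod 16: V is odd
  have hII16 : ((a' * (V ^ 2 - W ^ 2) : ℤ) : ZMod 16) = ((40 * E ^ 2 : ℤ) : ZMod 16) :=
    congrArg _ hII
  push_cast at hII16
  have ha16 : ((a' : ℤ) : ZMod 16) = 1 ∨ ((a' : ℤ) : ZMod 16) = -1 ∨ ((a' : ℤ) : ZMod 16) = 5 ∨
      ((a' : ℤ) : ZMod 16) = -5 := by
    rcases ha' with rfl | rfl | rfl | rfl <;> simp
  rcases zmod16_even _ ha16 _ _ _ hII16 with h | h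
  · exact hEodd (two_dvd_of_cast16 h)
  · exact h (cast16_of_two_dvd hV2)

/-- **Elimination**: only the four torsion classes survive. -/
theorem elim (p q U V W E a b : ℤ) (hcop : IsCoprime p q)
    (ha : a = 1 ∨ a = -1 ∨ a = 2 ∨ a = -2 ∨ a = 5 ∨ a = -5 ∨ a = 10 ∨ a = -10)
    (hb : b = 1 ∨ b = 3) (h0 : q = E ^ 2) (h1 : p + q = b * U ^ 2) (h2 : p = a * V ^ 2)
    (h3 : p - 80 * q = a * b * W ^ 2) :
    b = 1 ∧ (a = 1 ∨ a = -1 ∨ a = 5 ∨ a = -5) := by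
  rcases hb with rfl | rfl
  · refine ⟨rfl, ?_⟩
    rw [one_mul] at h1
    rw [mul_one] at h3
    rcases ha with rfl | rfl | rfl | rfl | rfl | rfl | rfl | rfl
    · exact Or.inl rfl
    · exact Or.inr (Or.inl rfl)
    · exact (elim_b1_even p q U V W E 1 hcop (by norm_num) h0 h1 (by rw [h2]; ring) (by rw [h3]; ring)).elim
    · exact (elim_b1_even p q U V W E (-1) hcop (by norm_num) h0 h1 (by rw [h2]; ring) (by rw [h3]; ring)).elim
    · exact Or.inr (Or.inr (Or.inl rfl))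
    · exact Or.inr (Or.inr (Or.inr rfl))
    · exact (elim_b1_even p q U V W E 5 hcop (by norm_num) h0 h1 (by rw [h2]; ring) (by rw [h3]; ring)).elim
    · exact (elim_b1_even p q U V W E (-5) hcop (by norm_num) h0 h1 (by rw [h2]; ring) (by rw [h3]; ring)).elim
  · exfalso
    rcases ha with rfl | rfl | rfl | rfl | rfl | rfl | rfl | rfl
    · exact elim_b3_mod3 p q U V E 1 hcop (by decide) h0 h1 h2
    · exact elim_b3_neg_one p q U V W E hcop h0 h1 h2 h3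
    · exact elim_b3_two p q U V W E hcop h0 h1 h2 h3
    · exact elim_b3_mod3 p q U V E (-2) hcop (by decide) h0 h1 h2
    · exact elim_b3_five_dvd p q U V E 5 hcop (by norm_num) h0 h1 h2
    · exact elim_b3_mod3 p q U V E (-5) hcop (by decide) h0 h1 h2
    · exact elim_b3_mod3 p q U V E 10 hcop (by decide) h0 h1 h2
    · exact elim_b3_five_dvd p q U V E (-10) hcop (by norm_num) h0 h1 h2

end Fermat.Agent.S51.KL
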