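import Mathlib

set_option autoImplicit false

/-!
# Class exclusions for the 2-descent on `y² = z (z+1) (z-80)`

With `q = E²`, `p = ε c V²`, `p + q = b₁ U²`, `p - 80 q = ε b₁ c W²`, `gcd(p,q) = 1`:
* all classes with `b₁ = 3` are impossible modulo `5` (`excl_three`);
* the classes `b₁ = 1`, `c ∈ {2, 10}` are impossible `2`-adically (`excl_even`).
-/

namespace Fermat.Agent.S51.KL

private lemma zmod5_sq_eq_three_mul_sq : ∀ a b : ZMod 5, a ^ 2 = 3 * b ^ 2 → a = 0 := by decide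

private lemma five_dvd_of_sq_eq (a b : ℤ) (h : (5 : ℤ) ∣ a ^ 2 - 3 * b ^ 2) : (5 : ℤ) ∣ a := by
  have h' : ((a ^ 2 - 3 * b ^ 2 : ℤ) : ZMod 5) = 0 := (ZMod.intCast_zmod_eq_zero_iff_dvd _ 5).2 h
  push_cast at h'
  have h'' : (a : ZMod 5) ^ 2 = 3 * (b : ZMod 5) ^ 2 := sub_eq_zero.mp h'
  exact (ZMod.intCast_zmod_eq_zero_iff_dvd a 5).1 (zmod5_sq_eq_three_mul_sq _ _ h'')

private lemma not_coprime_of_five_dvd {a b : ℤ} (ha : (5 : ℤ) ∣ a) (hb : (5 : ℤ) ∣ b)
    (h : IsCoprime a b) : False := by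
  have h1 : IsUnit (5 : ℤ) := h.isUnit_of_dvd' ha hb
  rw [Int.isUnit_iff] at h1
  omega

/-- All classes with `b₁ = 3` die modulo `5`. -/
theorem excl_three (V E U W c ε : ℤ) (hc : c = 1 ∨ c = 2 ∨ c = 5 ∨ c = 10)
    (hε : ε = 1 ∨ ε = -1) (hcop : IsCoprime (c * V) E)
    (h1 : ε * c * V ^ 2 + E ^ 2 = 3 * U ^ 2)
    (h2 : ε * c * V ^ 2 - 80 * E ^ 2 = 3 * ε * c * W ^ 2) : False := by
  have hε2 : ε ^ 2 = 1 := by rcases hε with rfl | rfl <;> norm_num
  by_cases h5c : (5 : ℤ) ∣ c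
  · -- `5 ∣ c`: then `E² ≡ 3 U²`, so `5 ∣ E`, and `5 ∣ c V`
    have hE : (5 : ℤ) ∣ E := by
      apply five_dvd_of_sq_eq E U
      obtain ⟨k, hk⟩ := h5c
      refine ⟨-(ε * k * V ^ 2), ?_⟩
      rw [hk] at h1
      linear_combination h1
    exact not_coprime_of_five_dvd (Dvd.dvd.mul_right h5c V) hE hcop
  · -- `5 ∤ c`: `c ∈ {1, 2}`
    have hc' : c = 1 ∨ c = 2 := by
      rcases hc with rfl | rfl | rfl | rfl
      · exact Or.inl rfl
      · exact Or.inr rfl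
      · exact absurd (dvd_refl 5) h5c
      · exact absurd (⟨2, by norm_num⟩ : (5 : ℤ) ∣ 10) h5c
    -- from h2: `5 ∣ ε c (V² - 3 W²)`, hence `5 ∣ V² - 3W²`
    have hV : (5 : ℤ) ∣ V := by
      apply five_dvd_of_sq_eq V W
      have h5 : (5 : ℤ) ∣ ε * c * (V ^ 2 - 3 * W ^ 2) := ⟨16 * E ^ 2, by linear_combination h2⟩
      have hp5 : Prime (5 : ℤ) := Int.prime_iff_natAbs_prime.mpr (by norm_num)
      rcases hp5.dvd_or_dvd h5 with h | h
      · rcases hp5.dvd_or_dvd h with h | h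
        · exfalso
          rcases hε with rfl | rfl
          · norm_num at h
          · norm_num at h
        · exact absurd h h5c
      · exact h
    have hE : (5 : ℤ) ∣ E := by
      apply five_dvd_of_sq_eq E U
      obtain ⟨k, hk⟩ := hV
      refine ⟨-(5 * ε * c * k ^ 2), ?_⟩
      rw [hk] at h1
      linear_combination h1
    exact not_coprime_of_five_dvd (Dvd.dvd.mul_left hV c) hE hcop

private lemma sq_emod_four (x : ℤ) : x ^ 2 % 4 = 0 ∨ x ^ 2 % 4 = 1 := by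
  have h : x % 4 = 0 ∨ x % 4 = 1 ∨ x % 4 = 2 ∨ x % 4 = 3 := by omega
  rcases h with h | h | h | h <;> simp [pow_two, Int.mul_emod, h]

private lemma odd_sq_emod_eight (x : ℤ) (hx : x % 2 = 1) : x ^ 2 % 8 = 1 := by
  have h : x % 8 = 1 ∨ x % 8 = 3 ∨ x % 8 = 5 ∨ x % 8 = 7 := by omega
  rcases h with h | h | h | h <;> simp [pow_two, Int.mul_emod, h]

private lemma even_of_sq_emod_four (x : ℤ) (hx : x ^ 2 % 4 = 0) : x % 2 = 0 := by
  by_contra h
  have h1 : x % 2 = 1 := by omega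
  have := odd_sq_emod_eight x h1
  omega

/-- The classes `b₁ = 1`, `c ∈ {2, 10}` die `2`-adically. -/
theorem excl_even (V E U W c ε : ℤ) (hc : c = 2 ∨ c = 10) (hε : ε = 1 ∨ ε = -1)
    (hcop : IsCoprime (c * V) E)
    (h1 : ε * c * V ^ 2 + E ^ 2 = U ^ 2)
    (h2 : ε * c * V ^ 2 - 80 * E ^ 2 = ε * c * W ^ 2) : False := by
  -- `E` is odd
  have hE : E % 2 = 1 := by
    by_contra hE
    have hE' : (2 : ℤ) ∣ E := by omega
    have hc2 : (2 : ℤ) ∣ c * V := by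
      rcases hc with rfl | rfl
      · exact ⟨V, by ring⟩
      · exact ⟨5 * V, by ring⟩
    have h1 : IsUnit (2 : ℤ) := hcop.isUnit_of_dvd' hc2 hE'
    rw [Int.isUnit_iff] at h1
    omega
  have hE8 := odd_sq_emod_eight E hE
  -- `U` is odd
  have hU : U % 2 = 1 := by
    by_contra hU
    have hU0 : U % 2 = 0 := by omega
    have hU2 : U ^ 2 % 2 = 0 := by
      obtain ⟨k, hk⟩ : (2 : ℤ) ∣ U := by omega
      rw [hk]; ring_nf; omega
    have hV2 : (ε * c * V ^ 2) % 2 = 0 := by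
      rcases hc with rfl | rfl
      · have : ε * 2 * V ^ 2 = 2 * (ε * V ^ 2) := by ring
        rw [this]; omega
      · have : ε * 10 * V ^ 2 = 2 * (5 * ε * V ^ 2) := by ring
        rw [this]; omega
    omega
  have hU8 := odd_sq_emod_eight U hU
  -- `V` is even
  have hV : V % 2 = 0 := by
    apply even_of_sq_emod_four
    have hV4 := sq_emod_four V
    rcases hε with rfl | rfl <;> rcases hc with rfl | rfl <;> omega
  obtain ⟨V₁, rfl⟩ : (2 : ℤ) ∣ V := by omega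
  -- `W` is even
  have hW : W % 2 = 0 := by
    apply even_of_sq_emod_four
    have hW4 := sq_emod_four W
    rcases hε with rfl | rfl <;> rcases hc with rfl | rfl <;> omega
  obtain ⟨W₁, rfl⟩ : (2 : ℤ) ∣ W := by omega
  -- now `V₁² - W₁² ≡ 2 (mod 4)`: impossible
  have hV4 := sq_emod_four V₁
  have hW4 := sq_emod_four W₁
  have hE4 : E ^ 2 % 4 = 1 := by omega
  rcases hε with rfl | rfl <;> rcases hc with rfl | rfl
  · -- ε = 1, c = 2: V₁² - W₁² = 10 E²
    have h2' : 8 * (V₁ ^ 2 - W₁ ^ 2) = 8 * (10 * E ^ 2) := by linear_combination h2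
    omega
  · have h2' : 40 * (V₁ ^ 2 - W₁ ^ 2) = 40 * (2 * E ^ 2) := by linear_combination h2
    omega
  · have h2' : 8 * (W₁ ^ 2 - V₁ ^ 2) = 8 * (10 * E ^ 2) := by linear_combination h2
    omega
  · have h2' : 40 * (W₁ ^ 2 - V₁ ^ 2) = 40 * (2 * E ^ 2) := by linear_combination h2
    omega

end Fermat.Agent.S51.KL
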