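/-
S51 / KL descent: local (3-adic and 2-adic) exclusion lemmas for the Selmer-type classes (helper93).
-/
import Mathlib.Data.ZMod.Basic
import Mathlib.Tactic

set_option autoImplicit false

namespace Fermat.Agent.S51.KL

private lemma zmod3_a : ∀ e v c : ZMod 3, e ≠ 0 → -e ^ 2 = c * v ^ 2 → c = 2 := by decide

private lemma zmod3_b : ∀ u w : ZMod 3, u ^ 2 = 2 * w ^ 2 → u = 0 ∧ w = 0 := by decide

private lemma three_dvd_of_sq_eq (u w c : ℤ) (hc : (c : ZMod 3) = 2)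
    (h : ∃ k : ℤ, u ^ 2 = c * w ^ 2 + 3 * k) : (3 : ℤ) ∣ u ∧ (3 : ℤ) ∣ w := by
  obtain ⟨k, hk⟩ := h
  have := congrArg (Int.cast : ℤ → ZMod 3) hk
  push_cast at this
  rw [hc] at this
  have h30 : (3 : ZMod 3) = 0 := by decide
  rw [h30, zero_mul, add_zero] at this
  obtain ⟨hu, hw⟩ := zmod3_b _ _ this
  exact ⟨(ZMod.intCast_zmod_eq_zero_iff_dvd u 3).mp hu, (ZMod.intCast_zmod_eq_zero_iff_dvd w 3).mp hw⟩

/-- 3-adic exclusion: kills the classes with `p + q = 3 U²` (`q = E²`, `p = c V²`,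
`p - 80 q = 3 c W²`). -/
theorem excl_three (U E V W c : ℤ) (hE : ¬ (3 : ℤ) ∣ E)
    (h1 : 3 * U ^ 2 - E ^ 2 = c * V ^ 2) (h2 : U ^ 2 - 27 * E ^ 2 = c * W ^ 2) : False := by
  have h30 : (3 : ZMod 3) = 0 := by decide
  have h270 : (27 : ZMod 3) = 0 := by decide
  have hE' : (E : ZMod 3) ≠ 0 := fun h => hE ((ZMod.intCast_zmod_eq_zero_iff_dvd E 3).mp h)
  have hc : (c : ZMod 3) = 2 := by
    have := congrArg (Int.cast : ℤ → ZMod 3) h1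
    push_cast at this
    rw [h30, zero_mul, zero_sub] at this
    exact zmod3_a _ _ _ hE' this
  -- 3 ∣ U, 3 ∣ W
  obtain ⟨⟨U₁, rfl⟩, ⟨W₁, rfl⟩⟩ := three_dvd_of_sq_eq U W c hc ⟨9 * E ^ 2, by linarith⟩
  have h3 : U₁ ^ 2 - 3 * E ^ 2 = c * W₁ ^ 2 := by
    have : (9 : ℤ) * (U₁ ^ 2 - 3 * E ^ 2) = 9 * (c * W₁ ^ 2) := by linear_combination h2
    exact mul_left_cancel₀ (by norm_num) this
  obtain ⟨⟨U₂, rfl⟩, ⟨W₂, rfl⟩⟩ := three_dvd_of_sq_eq U₁ W₁ c hc ⟨E ^ 2, by linarith⟩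
  have h4 : E ^ 2 = 3 * (U₂ ^ 2 - c * W₂ ^ 2) := by
    have : (3 : ℤ) * E ^ 2 = 3 * (3 * (U₂ ^ 2 - c * W₂ ^ 2)) := by linear_combination (-1 : ℤ) * h3
    exact mul_left_cancel₀ (by norm_num) this
  have h5 : (3 : ℤ) ∣ E ^ 2 := ⟨_, h4⟩
  have hp : Prime (3 : ℤ) := Int.prime_iff_natAbs_prime.mpr (by norm_num)
  exact hE (hp.dvd_of_dvd_pow h5)

private lemma zmod8_sq : ∀ u : ZMod 8, u ^ 2 ≠ 3 ∧ u ^ 2 ≠ 7 := by decide

private lemma zmod8_odd_sq : ∀ x : ZMod 8, (x = 1 ∨ x = 3 ∨ x = 5 ∨ x = 7) → x ^ 2 = 1 := by decide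

private lemma zmod4_diff : ∀ c v w e : ZMod 4, (c = 1 ∨ c = 3) → (e = 1 ∨ e = 3) →
    c * (v ^ 2 - w ^ 2) ≠ 10 * e ^ 2 := by decide

private lemma int_odd_cast8 (x : ℤ) (hx : ¬ (2 : ℤ) ∣ x) :
    ((x : ZMod 8) = 1 ∨ (x : ZMod 8) = 3 ∨ (x : ZMod 8) = 5 ∨ (x : ZMod 8) = 7) := by
  have h : x % 8 = 1 ∨ x % 8 = 3 ∨ x % 8 = 5 ∨ x % 8 = 7 := by omega
  have hx8 : (x : ZMod 8) = ((x % 8 : ℤ) : ZMod 8) := by
    have := ZMod.intCast_mod x 8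
    push_cast at this
    exact this.symm
  rcases h with h | h | h | h <;> rw [hx8, h] <;> simp

private lemma int_odd_cast4 (x : ℤ) (hx : ¬ (2 : ℤ) ∣ x) :
    ((x : ZMod 4) = 1 ∨ (x : ZMod 4) = 3) := by
  have h : x % 4 = 1 ∨ x % 4 = 3 := by omega
  have hx4 : (x : ZMod 4) = ((x % 4 : ℤ) : ZMod 4) := by
    have := ZMod.intCast_mod x 4
    push_cast at this
    exact this.symm
  rcases h with h | h <;> rw [hx4, h] <;> simp

/-- 2-adic exclusion: kills the classes with `p = 2 c V²` (`p + q = U²`, `q = E²`,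
`p - 80 q = 2 c W²`), `c ∈ {±1, ±5}`. -/
theorem excl_two (U E V W c : ℤ) (hE : ¬ (2 : ℤ) ∣ E)
    (hc : c = 1 ∨ c = -1 ∨ c = 5 ∨ c = -5)
    (h1 : U ^ 2 = 2 * c * V ^ 2 + E ^ 2)
    (h2 : 2 * c * V ^ 2 - 80 * E ^ 2 = 2 * c * W ^ 2) : False := by
  have hcodd : ¬ (2 : ℤ) ∣ c := by rcases hc with rfl | rfl | rfl | rfl <;> norm_num
  by_cases hV : (2 : ℤ) ∣ V
  · -- V even
    obtain ⟨V₁, rfl⟩ := hV
    -- W even
    have hW : (2 : ℤ) ∣ W := by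
      have h3 : c * W ^ 2 = 2 * (2 * c * V₁ ^ 2 - 20 * E ^ 2) := by
        have : (2 : ℤ) * (c * W ^ 2) = 2 * (2 * (2 * c * V₁ ^ 2 - 20 * E ^ 2)) := by
          linear_combination (-1 : ℤ) * h2
        exact mul_left_cancel₀ (by norm_num) this
      have h4 : (2 : ℤ) ∣ c * W ^ 2 := ⟨_, h3⟩
      have hp : Prime (2 : ℤ) := Int.prime_two
      rcases hp.dvd_or_dvd h4 with h | h
      · exact absurd h hcodd
      · exact hp.dvd_of_dvd_pow h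
    obtain ⟨W₁, rfl⟩ := hW
    have h5 : c * (V₁ ^ 2 - W₁ ^ 2) = 10 * E ^ 2 := by
      have : (8 : ℤ) * (c * (V₁ ^ 2 - W₁ ^ 2)) = 8 * (10 * E ^ 2) := by linear_combination h2
      exact mul_left_cancel₀ (by norm_num) this
    have h6 := congrArg (Int.cast : ℤ → ZMod 4) h5
    push_cast at h6
    exact zmod4_diff _ _ _ _ (int_odd_cast4 c hcodd) (int_odd_cast4 E hE) h6
  · -- V odd
    have hV8 := zmod8_odd_sq _ (int_odd_cast8 V hV)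
    have hE8 := zmod8_odd_sq _ (int_odd_cast8 E hE)
    have h3 := congrArg (Int.cast : ℤ → ZMod 8) h1
    push_cast at h3
    rw [hV8, hE8] at h3
    have hs := zmod8_sq (U : ZMod 8)
    rcases hc with rfl | rfl | rfl | rfl
    · apply hs.1; rw [h3]; decide
    · apply hs.2; rw [h3]; decide
    · apply hs.1; rw [h3]; decide
    · apply hs.2; rw [h3]; decide

end Fermat.Agent.S51.KL
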