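import Mathlib
import Fermat.Agent.S51.KL.Defs
import Fermat.Agent.S51.KL.Classes
import Fermat.Agent.S51.KL.ClassOne
import Fermat.Agent.S51.KL.Halve
import Fermat.Agent.S51.KL.Small
import Fermat.Agent.S51.KL.Rat

set_option autoImplicit false

namespace Fermat.Agent.S51.KL

theorem noSol_pos_aux : ∀ n : ℕ, ∀ p q : ℤ, 0 < q → Sol p q → (max |p| q).toNat = n → False := by
  intro n
  induction n using Nat.strong_induction_on with
  | _ n ih =>
    intro p q hq hS hn
    obtain ⟨U, V, W, E, δ, hδ, hU, hV, hW, hE, h0, h1, h2, h3⟩ := classes p q hq hS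
    have hH0 : 0 < max |p| q := lt_of_lt_of_le hq (le_max_right _ _)
    by_cases hbig : 324 < max |p| q
    · obtain ⟨U', V', W', E', hS1, hU'⟩ := to_class_one p q U V W E δ hδ hU hV hW hE hS.1 h0 h1 h2 h3
      obtain ⟨r, s, hs, hSol, hr, hs'⟩ := halve U' V' W' E' hS1
      have hU'pos : 0 < U' := hS1.1
      have hlt : max |r| s < max |p| q := by
        have h2U : max |r| s ≤ 2 * U' := max_le hr hs'
        have : (2 * U') ^ 2 < (max |p| q) ^ 2 := by nlinarith
        have h2 : 2 * U' < max |p| q := lt_of_pow_lt_pow_left₀ 2 hH0.le this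
        exact lt_of_le_of_lt h2U h2
      have hH'0 : 0 < max |r| s := lt_of_lt_of_le hs (le_max_right _ _)
      refine ih (max |r| s).toNat ?_ r s hs hSol rfl
      rw [← hn]
      omega
    · have := no_small U V W E δ hδ hU hV hW hE (by rw [← h2, ← h0]; exact h1)
        (by rw [← h2, ← h0]; exact h3)
      rw [← h2, ← h0] at this
      exact hbig this

theorem noSol (p q : ℤ) : ¬ Sol p q := by
  intro h
  have hq0 := h.q_ne_zero
  rcases lt_or_gt_of_ne hq0 with hq | hq
  · exact noSol_pos_aux _ (-p) (-q) (by omega) h.neg rfl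
  · exact noSol_pos_aux _ p q hq h rfl

theorem descent15_noSol (X Y : ℚ) (h : Y ^ 2 = X * (X - 9) * (X - 25)) : Y = 0 ∨ X = 45 ∨ X = 5 :=
  descent15 (rat_KL noSol) X Y h

end Fermat.Agent.S51.KL
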